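import Fermat.Agent.LT.A2.TopTC
import Fermat.Agent.LT.A2.H771.HasseNorm

/-!
# Row LT, tower A2, leaf A2.05b `HasseNormTC` -- the v2 INTERFACE with tower CFT (helper431)

OFF-MAIN.  Complete proof, nothing assumed.

    hasseNormTC_of_T6TCC431 : T6.HasseNormTCC → A2.HasseNormTC

`T6.HasseNormTCC` (helper22, `LT/T6/Spec.lean` v3, VERBATIM) is the Hasse norm theorem for a
cyclic extension `M / L` of prime degree of a TOTALLY COMPLEX number field `L`, in local tensor
form (finite places only).  `A2.HasseNormTC` (helper950, `LT/A2/TopTC.lean`, VERBATIM) is the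
same theorem for the quadratic extension `K[X]/(X² - tX + n)` of a totally complex field `K` in
torus coordinates.

Route: the v1 adapter of helper771 (`LT/A2/H771/HasseNorm.lean`, imported byte-identical:
`qpoly`, `qbasis`, `norm_tensor`, `finC`) with the hypothesis "totally complex" passed on; the
infinite places are not needed.
-/

set_option autoImplicit false

open IsDedekindDomain NumberField Polynomial
open scoped TensorProduct

noncomputable section

namespace Fermat.Agent.LT.A2.H431

open Fermat.Agent.LT.H556 Fermat.Agent.LT.A2.H771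

/-- **A2.05b for ONE torus**: the Hasse norm theorem of tower T6/CFT over the totally complex
fields gives `HasseNormAt K t n` for every totally complex `K` and every anisotropic torus. -/
theorem hasseNormAt_of_T6TCC431 (hT6 : Fermat.Agent.LT.T6.HasseNormTCC)
    (K : Type) [Field K] [NumberField K] (hcx : ∀ u : InfinitePlace K, u.IsComplex)
    (t n : K) (hirr : ∀ x : K, x ^ 2 - t * x + n ≠ 0) :
    Fermat.Agent.LT.A2.HasseNormAt K t n := by
  intro a m hm hdet
  have : Fact (Irreducible (qpoly t n)) := ⟨qpoly_irreducible t n hirr⟩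
  have : Module.Finite K (AdjoinRoot (qpoly t n)) :=
    Module.Finite.of_basis (qbasis t n)
  have : NumberField (AdjoinRoot (qpoly t n)) := NumberField.of_module_finite K _
  have hrank : Module.finrank K (AdjoinRoot (qpoly t n)) = 2 := by
    rw [Module.finrank_eq_card_basis (qbasis t n)]; simp
  have : Algebra.IsQuadraticExtension K (AdjoinRoot (qpoly t n)) :=
    { toFree := Module.Free.of_basis (qbasis t n), finrank_eq_two' := hrank }
  obtain ⟨α, β, hmat⟩ := hm
  have hdet' : α ^ 2 + algebraMap K (A0.Adl K) t * α * β + algebraMap K (A0.Adl K) n * β ^ 2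
      = algebraMap K (A0.Adl K) a := by
    rw [← hdet, Matrix.GeneralLinearGroup.val_det_apply, hmat, torMat, Matrix.det_fin_two_of]
    ring
  have ha : a ≠ 0 := by
    rintro rfl
    have hu : IsUnit (algebraMap K (A0.Adl K) 0) := by
      rw [← hdet]; exact Units.isUnit _
    rw [map_zero] at hu
    have : Nontrivial (A0.Adl K) :=
      (NumberField.AdeleRing.algebraMap_injective (𝓞 K) K).nontrivial
    exact not_isUnit_zero hu
  obtain ⟨y, hy⟩ := hT6 K (AdjoinRoot (qpoly t n)) inferInstance
    (by rw [hrank]; exact Nat.prime_two) hcx a ha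
    (fun u => ⟨finC u α • (1 : u.adicCompletion K ⊗[K] AdjoinRoot (qpoly t n))
        + finC u β • ((1 : u.adicCompletion K) ⊗ₜ[K] AdjoinRoot.root (qpoly t n)), by
      rw [norm_tensor, ← finC_algebraMap u a, ← hdet']
      simp only [map_add, map_mul, map_pow, finC_algebraMap]⟩)
  -- the rational torus element
  set α₀ : K := (qbasis t n).repr y 0 with hα₀
  set β₀ : K := (qbasis t n).repr y 1 with hβ₀
  have hy' : y = α₀ • (1 : AdjoinRoot (qpoly t n)) + β₀ • qbasis t n 1 := by
    conv_lhs => rw [← (qbasis t n).sum_repr y]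
    rw [Fin.sum_univ_two, qbasis_zero]
  have hw : qbasis t n 1 * qbasis t n 1
      = t • qbasis t n 1 - n • (1 : AdjoinRoot (qpoly t n)) := by
    rw [qbasis_one]; exact root_mul_root t n
  have hnorm : α₀ ^ 2 + t * α₀ * β₀ + n * β₀ ^ 2 = a := by
    rw [← hy, hy', norm_quadBasis (qbasis t n) (qbasis_zero t n) t n hw]
  have hdet0 : (torMat t n α₀ β₀).det ≠ 0 := by
    rw [torMat, Matrix.det_fin_two_of]
    intro h
    apply ha
    rw [← hnorm]
    linear_combination h
  refine ⟨Matrix.GeneralLinearGroup.map (algebraMap K (A0.Adl K))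
    (Matrix.GeneralLinearGroup.mkOfDetNeZero (torMat t n α₀ β₀) hdet0), ⟨α₀, β₀, ?_⟩, ?_⟩
  · ext i j
    fin_cases i <;> fin_cases j <;> simp [torMat, Matrix.GeneralLinearGroup.mkOfDetNeZero]
  · rw [Matrix.GeneralLinearGroup.val_det_apply]
    have : ((Matrix.GeneralLinearGroup.map (algebraMap K (A0.Adl K))
        (Matrix.GeneralLinearGroup.mkOfDetNeZero (torMat t n α₀ β₀) hdet0) : A0.G K) :
          Matrix (Fin 2) (Fin 2) (A0.Adl K))
        = (torMat t n α₀ β₀).map (algebraMap K (A0.Adl K)) := rfl
    rw [this, ← RingHom.mapMatrix_apply, ← RingHom.map_det, torMat, Matrix.det_fin_two_of,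
      ← hnorm]
    congr 1
    ring

/-- **A2.05b (interface with tower CFT, v2).**  `T6.HasseNormTCC → A2.HasseNormTC`. -/
theorem hasseNormTC_of_T6TCC431 (hT6 : Fermat.Agent.LT.T6.HasseNormTCC) :
    Fermat.Agent.LT.A2.HasseNormTC :=
  fun K _ _ hcx t n hirr => hasseNormAt_of_T6TCC431 hT6 K hcx t n hirr

end Fermat.Agent.LT.A2.H431

end
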